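/-
S41 / [AMALGAM] (helper95): the groups.  Inside `SL(2,ℚ)`:
* `GamQ N`     = image of `Γ₀(N)`;
* `conjδ q`    = conjugation by `diag(q,1)`: `[[a,b],[c,d]] ↦ [[a, q b],[c / q, d]]`;
* `GamQδ N q`  = `conjδ q (GamQ N)`;
* the action of `SL(2,ℚ)` on `ℚ × ℚ`.
-/
import Mathlib.NumberTheory.ModularForms.CongruenceSubgroups
import Mathlib.NumberTheory.Padics.PadicNorm
import Mathlib.LinearAlgebra.Matrix.SpecialLinearGroup

set_option autoImplicit false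

namespace Fermat.Agent.S41.Amalgam95

open Matrix

/-- `SL(2,ℚ)` -/
abbrev SLQ := Matrix.SpecialLinearGroup (Fin 2) ℚ

/-- build an element of `SL(2,ℚ)` from its entries -/
def mkQ (a b c d : ℚ) (h : a * d - b * c = 1) : SLQ :=
  ⟨!![a, b; c, d], by rw [Matrix.det_fin_two_of]; exact h⟩

@[simp] lemma mkQ_00 (a b c d : ℚ) (h) : (mkQ a b c d h) 0 0 = a := rfl
@[simp] lemma mkQ_01 (a b c d : ℚ) (h) : (mkQ a b c d h) 0 1 = b := rfl
@[simp] lemma mkQ_10 (a b c d : ℚ) (h) : (mkQ a b c d h) 1 0 = c := rfl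
@[simp] lemma mkQ_11 (a b c d : ℚ) (h) : (mkQ a b c d h) 1 1 = d := rfl

lemma det_eq (g : SLQ) : g 0 0 * g 1 1 - g 0 1 * g 1 0 = 1 := by
  have := g.det_coe
  rwa [Matrix.det_fin_two] at this

lemma ext_entries {g h : SLQ} (h00 : g 0 0 = h 0 0) (h01 : g 0 1 = h 0 1)
    (h10 : g 1 0 = h 1 0) (h11 : g 1 1 = h 1 1) : g = h := by
  ext i j
  fin_cases i <;> fin_cases j <;> assumption

lemma eq_mkQ (g : SLQ) : g = mkQ (g 0 0) (g 0 1) (g 1 0) (g 1 1) (det_eq g) :=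
  ext_entries rfl rfl rfl rfl

lemma mul_00 (g h : SLQ) : (g * h) 0 0 = g 0 0 * h 0 0 + g 0 1 * h 1 0 := by
  simp [Matrix.mul_apply, Fin.sum_univ_two]
lemma mul_01 (g h : SLQ) : (g * h) 0 1 = g 0 0 * h 0 1 + g 0 1 * h 1 1 := by
  simp [Matrix.mul_apply, Fin.sum_univ_two]
lemma mul_10 (g h : SLQ) : (g * h) 1 0 = g 1 0 * h 0 0 + g 1 1 * h 1 0 := by
  simp [Matrix.mul_apply, Fin.sum_univ_two]
lemma mul_11 (g h : SLQ) : (g * h) 1 1 = g 1 0 * h 0 1 + g 1 1 * h 1 1 := by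
  simp [Matrix.mul_apply, Fin.sum_univ_two]

lemma one_00 : (1 : SLQ) 0 0 = 1 := by simp
lemma one_01 : (1 : SLQ) 0 1 = 0 := by simp
lemma one_10 : (1 : SLQ) 1 0 = 0 := by simp
lemma one_11 : (1 : SLQ) 1 1 = 1 := by simp

lemma inv_00 (g : SLQ) : (g⁻¹) 0 0 = g 1 1 := by
  simp [Matrix.SpecialLinearGroup.coe_inv, Matrix.adjugate_fin_two]
lemma inv_01 (g : SLQ) : (g⁻¹) 0 1 = - g 0 1 := by
  simp [Matrix.SpecialLinearGroup.coe_inv, Matrix.adjugate_fin_two]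
lemma inv_10 (g : SLQ) : (g⁻¹) 1 0 = - g 1 0 := by
  simp [Matrix.SpecialLinearGroup.coe_inv, Matrix.adjugate_fin_two]
lemma inv_11 (g : SLQ) : (g⁻¹) 1 1 = g 0 0 := by
  simp [Matrix.SpecialLinearGroup.coe_inv, Matrix.adjugate_fin_two]

/-- the action on column vectors `(x, y)` -/
instance : MulAction SLQ (ℚ × ℚ) where
  smul g v := (g 0 0 * v.1 + g 0 1 * v.2, g 1 0 * v.1 + g 1 1 * v.2)
  one_smul v := by
    show ((1 : SLQ) 0 0 * v.1 + (1 : SLQ) 0 1 * v.2, (1 : SLQ) 1 0 * v.1 + (1 : SLQ) 1 1 * v.2) = v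
    rw [one_00, one_01, one_10, one_11]
    ext <;> simp
  mul_smul g h v := by
    show ((g * h) 0 0 * v.1 + (g * h) 0 1 * v.2, (g * h) 1 0 * v.1 + (g * h) 1 1 * v.2) =
      (g 0 0 * (h 0 0 * v.1 + h 0 1 * v.2) + g 0 1 * (h 1 0 * v.1 + h 1 1 * v.2),
        g 1 0 * (h 0 0 * v.1 + h 0 1 * v.2) + g 1 1 * (h 1 0 * v.1 + h 1 1 * v.2))
    rw [mul_00, mul_01, mul_10, mul_11]
    ext <;> ring

lemma smul_def (g : SLQ) (v : ℚ × ℚ) :
    g • v = (g 0 0 * v.1 + g 0 1 * v.2, g 1 0 * v.1 + g 1 1 * v.2) := rfl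

/-- conjugation by `diag(q,1)`, as a function -/
def conjFun (q : ℕ) (hq : q ≠ 0) (g : SLQ) : SLQ :=
  mkQ (g 0 0) (q * g 0 1) (g 1 0 / q) (g 1 1) (by
    have := det_eq g
    have hq' : (q : ℚ) ≠ 0 := by exact_mod_cast hq
    field_simp
    linarith)

/-- conjugation by `diag(q,1)⁻¹`, as a function -/
def conjInvFun (q : ℕ) (hq : q ≠ 0) (g : SLQ) : SLQ :=
  mkQ (g 0 0) (g 0 1 / q) (q * g 1 0) (g 1 1) (by
    have := det_eq g
    have hq' : (q : ℚ) ≠ 0 := by exact_mod_cast hq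
    field_simp
    linarith)

section
variable (q : ℕ) (hq : q ≠ 0) (g : SLQ)
lemma conjFun_00 : (conjFun q hq g) 0 0 = g 0 0 := rfl
lemma conjFun_01 : (conjFun q hq g) 0 1 = q * g 0 1 := rfl
lemma conjFun_10 : (conjFun q hq g) 1 0 = g 1 0 / q := rfl
lemma conjFun_11 : (conjFun q hq g) 1 1 = g 1 1 := rfl
lemma conjInvFun_00 : (conjInvFun q hq g) 0 0 = g 0 0 := rfl
lemma conjInvFun_01 : (conjInvFun q hq g) 0 1 = g 0 1 / q := rfl
lemma conjInvFun_10 : (conjInvFun q hq g) 1 0 = q * g 1 0 := rfl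
lemma conjInvFun_11 : (conjInvFun q hq g) 1 1 = g 1 1 := rfl
end

lemma conjFun_mul (q : ℕ) (hq : q ≠ 0) (g h : SLQ) :
    conjFun q hq (g * h) = conjFun q hq g * conjFun q hq h := by
  have hq' : (q : ℚ) ≠ 0 := by exact_mod_cast hq
  apply ext_entries
  · rw [mul_00, conjFun_00, conjFun_00, conjFun_00, conjFun_01, conjFun_10, mul_00]; field_simp
  · rw [mul_01, conjFun_01, conjFun_00, conjFun_01, conjFun_01, conjFun_11, mul_01]; ring
  · rw [mul_10, conjFun_10, conjFun_10, conjFun_00, conjFun_11, conjFun_10, mul_10]; field_simp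
  · rw [mul_11, conjFun_11, conjFun_10, conjFun_01, conjFun_11, conjFun_11, mul_11]; field_simp

lemma conjInvFun_conjFun (q : ℕ) (hq : q ≠ 0) (g : SLQ) : conjInvFun q hq (conjFun q hq g) = g := by
  have hq' : (q : ℚ) ≠ 0 := by exact_mod_cast hq
  apply ext_entries
  · rw [conjInvFun_00, conjFun_00]
  · rw [conjInvFun_01, conjFun_01]; field_simp
  · rw [conjInvFun_10, conjFun_10]; field_simp
  · rw [conjInvFun_11, conjFun_11]

lemma conjFun_conjInvFun (q : ℕ) (hq : q ≠ 0) (g : SLQ) : conjFun q hq (conjInvFun q hq g) = g := by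
  have hq' : (q : ℚ) ≠ 0 := by exact_mod_cast hq
  apply ext_entries
  · rw [conjFun_00, conjInvFun_00]
  · rw [conjFun_01, conjInvFun_01]; field_simp
  · rw [conjFun_10, conjInvFun_10]; field_simp
  · rw [conjFun_11, conjInvFun_11]

/-- conjugation by `diag(q,1)` -/
def conjδ (q : ℕ) (hq : q ≠ 0) : SLQ ≃* SLQ where
  toFun := conjFun q hq
  invFun := conjInvFun q hq
  left_inv := conjInvFun_conjFun q hq
  right_inv := conjFun_conjInvFun q hq
  map_mul' := conjFun_mul q hq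

lemma conjδ_apply (q : ℕ) (hq : q ≠ 0) (g : SLQ) : conjδ q hq g = conjFun q hq g := rfl
lemma conjδ_symm_apply (q : ℕ) (hq : q ≠ 0) (g : SLQ) :
    (conjδ q hq).symm g = conjInvFun q hq g := rfl

end Fermat.Agent.S41.Amalgam95
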