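/-
S41 / [AMALGAM] (helper95): the three subgroups of `SL(2,ℚ)` and their entry descriptions.
-/
import Fermat.Agent.S41.Amalgam95.Basic

set_option autoImplicit false

namespace Fermat.Agent.S41.Amalgam95

open Matrix

/-- `SL(2,ℤ) → SL(2,ℚ)` -/
def castSL : Matrix.SpecialLinearGroup (Fin 2) ℤ →* SLQ :=
  Matrix.SpecialLinearGroup.map (Int.castRingHom ℚ)

lemma castSL_apply (g : Matrix.SpecialLinearGroup (Fin 2) ℤ) (i j : Fin 2) :
    castSL g i j = ((g i j : ℤ) : ℚ) := rfl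

/-- `Γ₀(N)` inside `SL(2,ℚ)` -/
def GamQ (N : ℕ) : Subgroup SLQ := (CongruenceSubgroup.Gamma0 N).map castSL

/-- `δ Γ₀(N) δ⁻¹`, `δ = diag(q,1)` -/
def GamQδ (N q : ℕ) (hq : q ≠ 0) : Subgroup SLQ := (GamQ N).map (conjδ q hq).toMonoidHom

lemma mem_GamQ_iff (N : ℕ) (g : SLQ) :
    g ∈ GamQ N ↔ ∃ a b c d : ℤ, g 0 0 = a ∧ g 0 1 = b ∧ g 1 0 = (N : ℚ) * c ∧ g 1 1 = d := by
  constructor
  · rintro ⟨h, hh, rfl⟩
    rw [SetLike.mem_coe, CongruenceSubgroup.Gamma0_mem] at hh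
    obtain ⟨c, hc⟩ := (ZMod.intCast_zmod_eq_zero_iff_dvd _ _).1 hh
    refine ⟨h 0 0, h 0 1, c, h 1 1, rfl, rfl, ?_, rfl⟩
    rw [castSL_apply, hc]
    push_cast
    ring
  · rintro ⟨a, b, c, d, h00, h01, h10, h11⟩
    have hdet := det_eq g
    rw [h00, h01, h10, h11] at hdet
    have hdetZ : a * d - b * ((N : ℤ) * c) = 1 := by exact_mod_cast hdet
    let h : Matrix.SpecialLinearGroup (Fin 2) ℤ :=
      ⟨!![a, b; (N : ℤ) * c, d], by rw [Matrix.det_fin_two_of]; exact hdetZ⟩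
    refine ⟨h, ?_, ?_⟩
    · rw [SetLike.mem_coe, CongruenceSubgroup.Gamma0_mem]
      show (((N : ℤ) * c : ℤ) : ZMod N) = 0
      push_cast
      simp
    · apply ext_entries
      · rw [castSL_apply, h00]; rfl
      · rw [castSL_apply, h01]; rfl
      · rw [castSL_apply, h10]; show (((N : ℤ) * c : ℤ) : ℚ) = _; push_cast; ring
      · rw [castSL_apply, h11]; rfl

lemma mem_GamQδ_iff (N q : ℕ) (hq : q ≠ 0) (g : SLQ) :
    g ∈ GamQδ N q hq ↔ ∃ a b c d : ℤ, g 0 0 = a ∧ g 0 1 = (q : ℚ) * b ∧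
      g 1 0 = (N : ℚ) * c / q ∧ g 1 1 = d := by
  have hq' : (q : ℚ) ≠ 0 := by exact_mod_cast hq
  constructor
  · rintro ⟨h, hh, rfl⟩
    obtain ⟨a, b, c, d, h00, h01, h10, h11⟩ := (mem_GamQ_iff N h).1 hh
    refine ⟨a, b, c, d, ?_, ?_, ?_, ?_⟩
    · show conjFun q hq h 0 0 = _; rw [conjFun_00, h00]
    · show conjFun q hq h 0 1 = _; rw [conjFun_01, h01]
    · show conjFun q hq h 1 0 = _; rw [conjFun_10, h10]
    · show conjFun q hq h 1 1 = _; rw [conjFun_11, h11]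
  · rintro ⟨a, b, c, d, h00, h01, h10, h11⟩
    refine ⟨(conjδ q hq).symm g, ?_, ?_⟩
    · rw [SetLike.mem_coe, mem_GamQ_iff]
      refine ⟨a, b, c, d, ?_, ?_, ?_, ?_⟩
      · rw [conjδ_symm_apply, conjInvFun_00, h00]
      · rw [conjδ_symm_apply, conjInvFun_01, h01]; field_simp
      · rw [conjδ_symm_apply, conjInvFun_10, h10]; field_simp
      · rw [conjδ_symm_apply, conjInvFun_11, h11]
    · exact (conjδ q hq).apply_symm_apply g

lemma mem_inf_iff (N q : ℕ) (hq : q ≠ 0) (g : SLQ) :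
    g ∈ GamQ N ⊓ GamQδ N q hq ↔ ∃ a b c d : ℤ, g 0 0 = a ∧ g 0 1 = (q : ℚ) * b ∧
      g 1 0 = (N : ℚ) * c ∧ g 1 1 = d := by
  have hq' : (q : ℚ) ≠ 0 := by exact_mod_cast hq
  constructor
  · rintro ⟨h1, h2⟩
    obtain ⟨a, -, c, d, h00, -, h10, h11⟩ := (mem_GamQ_iff N g).1 h1
    obtain ⟨-, b, -, -, -, h01, -, -⟩ := (mem_GamQδ_iff N q hq g).1 h2
    exact ⟨a, b, c, d, h00, h01, h10, h11⟩
  · rintro ⟨a, b, c, d, h00, h01, h10, h11⟩
    refine ⟨(mem_GamQ_iff N g).2 ⟨a, q * b, c, d, h00, ?_, h10, h11⟩,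
      (mem_GamQδ_iff N q hq g).2 ⟨a, b, q * c, d, h00, h01, ?_, h11⟩⟩
    · rw [h01]; push_cast; ring
    · rw [h10]; push_cast; field_simp

end Fermat.Agent.S41.Amalgam95
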