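/-
S41 / [AMALGAM] (helper95): abstract ping-pong criterion for an amalgam of two subgroups.

`G` a group, `A B : Subgroup G`, `C := A ⊓ B`.  `Amalg A B` is Mathlib's `Monoid.PushoutI` of the two
inclusions `C → A`, `C → B` (indexed by `Bool`: `false ↦ A`, `true ↦ B`), `toGroup : Amalg A B →* G`
the canonical map.  If `G` acts on a set with two disjoint subsets `X false`, `X true` such that
letters of `A \ C` move `X false` into `X true`, letters of `B \ C` move `X true` into `X false`,
`C` preserves both, and every letter outside `C` of type `i` keeps SOME point of `X (!i)` inside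
`X (!i)` (strictness), then `toGroup` is injective.
-/
import Mathlib.GroupTheory.PushoutI
import Mathlib.Algebra.Group.Subgroup.Lattice
import Mathlib.Algebra.Group.Action.Defs

set_option autoImplicit false

namespace Fermat.Agent.S41.Amalgam95

open Monoid Monoid.PushoutI

variable {G : Type*} [Group G] (A B : Subgroup G)

/-- the two factors, indexed by `Bool` -/
def fac : Bool → Subgroup G := fun i => cond i B A

@[simp] lemma fac_false : fac A B false = A := rfl
@[simp] lemma fac_true : fac A B true = B := rfl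

lemma inf_le_fac (i : Bool) : A ⊓ B ≤ fac A B i := by
  cases i
  · exact inf_le_left
  · exact inf_le_right

/-- inclusion of the base `A ⊓ B` in the `i`-th factor -/
def baseIncl (i : Bool) : ↥(A ⊓ B) →* ↥(fac A B i) :=
  Subgroup.inclusion (inf_le_fac A B i)

lemma baseIncl_injective (i : Bool) : Function.Injective (baseIncl A B i) :=
  Subgroup.inclusion_injective _

/-- the amalgam `A *_{A ⊓ B} B` -/
abbrev Amalg := PushoutI (baseIncl A B)

lemma subtype_comp_baseIncl (i : Bool) :
    (fac A B i).subtype.comp (baseIncl A B i) = (A ⊓ B).subtype := by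
  ext c
  rfl

/-- canonical map from the amalgam to the ambient group -/
def toGroup : Amalg A B →* G :=
  PushoutI.lift (fun i => (fac A B i).subtype) (A ⊓ B).subtype (subtype_comp_baseIncl A B)

@[simp] lemma toGroup_of (i : Bool) (g : ↥(fac A B i)) :
    toGroup A B (PushoutI.of i g) = (g : G) := by
  rw [toGroup, PushoutI.lift_of]; rfl

@[simp] lemma toGroup_base (c : ↥(A ⊓ B)) :
    toGroup A B (PushoutI.base (baseIncl A B) c) = (c : G) := by
  rw [toGroup, PushoutI.lift_base]; rfl

lemma mem_range_baseIncl_iff (i : Bool) (g : ↥(fac A B i)) :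
    g ∈ (baseIncl A B i).range ↔ (g : G) ∈ A ⊓ B := by
  constructor
  · rintro ⟨c, rfl⟩
    exact c.2
  · intro h
    exact ⟨⟨g, h⟩, rfl⟩

/-- value in `G` of a list of letters -/
def lprod (l : List (Σ i, ↥(fac A B i))) : G := (l.map fun s => (s.2 : G)).prod

@[simp] lemma lprod_nil : lprod A B [] = 1 := rfl
@[simp] lemma lprod_cons (s : Σ i, ↥(fac A B i)) (l : List (Σ i, ↥(fac A B i))) :
    lprod A B (s :: l) = (s.2 : G) * lprod A B l := by
  simp [lprod]

lemma toGroup_ofCoprodI_prod (w : CoprodI.Word fun i => ↥(fac A B i)) :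
    toGroup A B (ofCoprodI w.prod) = lprod A B w.toList := by
  induction w using CoprodI.Word.consRecOn with
  | empty => simp [CoprodI.Word.prod_empty]
  | cons i g w hIdx hg1 ih =>
    rw [CoprodI.Word.prod_cons, map_mul, map_mul, ih]
    simp [CoprodI.Word.cons]

section PingPong

variable {A B}
variable {X : Type*} [MulAction G X] (S : Bool → Set X)

/-- ping-pong hypotheses -/
structure PingPong : Prop where
  move : ∀ (i : Bool) (g : G), g ∈ fac A B i → g ∉ A ⊓ B → ∀ x ∈ S i, g • x ∈ S (!i)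
  base : ∀ c ∈ A ⊓ B, ∀ (i : Bool), ∀ x ∈ S i, c • x ∈ S i
  disj : Disjoint (S false) (S true)
  nonempty : ∀ i, (S i).Nonempty
  strict : ∀ (i : Bool) (g : G), g ∈ fac A B i → g ∉ A ⊓ B → ∃ x ∈ S (!i), g • x ∈ S (!i)

variable {S}

/-- an alternating word with letters outside the base moves `S (last index)` into
`S (! first index)` -/
lemma PingPong.lprod_smul_mem (h : PingPong (A := A) (B := B) S) :
    ∀ (l : List (Σ i, ↥(fac A B i))),
      l.IsChain (fun s s' => s.1 ≠ s'.1) → (∀ s ∈ l, (s.2 : G) ∉ A ⊓ B) →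
      ∀ s₀ ∈ l.head?, ∀ s₁ ∈ l.getLast?, ∀ x ∈ S s₁.1, lprod A B l • x ∈ S (!s₀.1) := by
  intro l
  induction l with
  | nil => intro _ _ s₀ hs₀; simp at hs₀
  | cons s t ih =>
    intro hch hC s₀ hs₀ s₁ hs₁ x hx
    simp only [List.head?_cons, Option.mem_def, Option.some.injEq] at hs₀
    subst hs₀
    cases t with
    | nil =>
      simp only [List.getLast?_singleton, Option.mem_def, Option.some.injEq] at hs₁
      subst hs₁
      simpa using h.move s.1 s.2 s.2.2 (hC s (by simp)) x hx
    | cons s' t' =>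
      rw [List.getLast?_cons_cons] at hs₁
      have hch' : (s' :: t').IsChain (fun s s' => s.1 ≠ s'.1) := hch.tail
      have hne : s.1 ≠ s'.1 := by
        have := hch
        simp only [List.isChain_cons_cons] at this
        exact this.1
      have h1 := ih hch' (fun u hu => hC u (List.mem_cons_of_mem _ hu)) s' (by simp) s₁ hs₁ x hx
      have hs' : (!s'.1) = s.1 := by
        cases hs : s.1 <;> cases hs'' : s'.1 <;> simp_all
      rw [hs'] at h1
      rw [lprod_cons, mul_smul]
      exact h.move s.1 s.2 s.2.2 (hC s (by simp)) _ h1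

/-- a nonempty alternating word with letters outside the base is not in the base -/
lemma PingPong.lprod_not_mem (h : PingPong (A := A) (B := B) S)
    (l : List (Σ i, ↥(fac A B i))) (hl : l ≠ [])
    (hch : l.IsChain (fun s s' => s.1 ≠ s'.1)) (hC : ∀ s ∈ l, (s.2 : G) ∉ A ⊓ B) :
    lprod A B l ∉ A ⊓ B := by
  intro hmem
  have hdisj : ∀ (i : Bool) (x : X), x ∈ S i → x ∈ S (!i) → False := by
    intro i x h1 h2
    cases i
    · exact (Set.disjoint_left.mp h.disj) h1 h2
    · exact (Set.disjoint_left.mp h.disj) h2 h1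
  obtain ⟨s, t, rfl⟩ := List.exists_cons_of_ne_nil hl
  obtain ⟨s₁, hs₁⟩ : ∃ s₁, (s :: t).getLast? = some s₁ := by
    cases hlast : (s :: t).getLast? with
    | none => simp at hlast
    | some s₁ => exact ⟨s₁, rfl⟩
  by_cases hfl : s.1 = s₁.1
  · -- first and last letters of the same type
    obtain ⟨x, hx⟩ := h.nonempty s₁.1
    have h1 := h.lprod_smul_mem (s :: t) hch hC s (by simp) s₁ hs₁ x hx
    have h2 := h.base _ hmem s₁.1 x hx
    rw [hfl] at h1
    exact hdisj _ _ h2 h1
  · -- first and last letters of different types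
    cases t with
    | nil =>
      simp only [List.getLast?_singleton, Option.some.injEq] at hs₁
      exact hfl (by rw [hs₁])
    | cons s' t' =>
      rw [List.getLast?_cons_cons] at hs₁
      have hch' : (s' :: t').IsChain (fun s s' => s.1 ≠ s'.1) := hch.tail
      have hne : s.1 ≠ s'.1 := by
        have := hch
        simp only [List.isChain_cons_cons] at this
        exact this.1
      have hs' : (!s'.1) = s.1 := by
        cases hs : s.1 <;> cases hs'' : s'.1 <;> simp_all
      have hs₁' : s₁.1 = !s.1 := by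
        cases hs : s.1 <;> cases hs'' : s₁.1 <;> simp_all
      -- the letter `g = s.2` and its inverse
      have hginv_mem : ((s.2 : G))⁻¹ ∈ fac A B s.1 := inv_mem s.2.2
      have hginv_not : ((s.2 : G))⁻¹ ∉ A ⊓ B := fun hh => hC s (by simp) (by simpa using inv_mem hh)
      obtain ⟨x, hx, hgx⟩ := h.strict s.1 _ hginv_mem hginv_not
      set w' := lprod A B (s' :: t') with hw'
      have hw : lprod A B (s :: s' :: t') = (s.2 : G) * w' := by rw [lprod_cons]
      rw [hw] at hmem
      have hinv : ((s.2 : G) * w')⁻¹ ∈ A ⊓ B := inv_mem hmem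
      have h3 := h.base _ hinv (!s.1) x hx
      rw [mul_inv_rev, mul_smul] at h3
      -- `z := w'⁻¹ • y ∈ S (!s.1)`, so `y = w' • z ∈ S s.1`
      have h4 := h.lprod_smul_mem (s' :: t') hch' (fun u hu => hC u (List.mem_cons_of_mem _ hu))
        s' (by simp) s₁ hs₁ (w'⁻¹ • ((s.2 : G))⁻¹ • x) (by rw [hs₁']; exact h3)
      rw [← hw', smul_inv_smul, hs'] at h4
      exact hdisj _ _ h4 hgx

/-- **Ping-pong criterion**: the canonical map from the amalgam to `G` is injective. -/
theorem PingPong.toGroup_injective (h : PingPong (A := A) (B := B) S) :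
    Function.Injective (toGroup A B) := by
  classical
  rw [injective_iff_map_eq_one]
  intro x hx
  obtain ⟨d⟩ := NormalWord.transversal_nonempty (baseIncl A B) (baseIncl_injective A B)
  set w : NormalWord d := NormalWord.equiv x with hw
  have hxw : x = w.prod := (NormalWord.equiv.symm_apply_apply x).symm
  have hval : toGroup A B x = (w.head : G) * lprod A B w.toList := by
    rw [hxw, NormalWord.prod, map_mul, toGroup_base, toGroup_ofCoprodI_prod]
  by_cases hnil : w.toList = []
  · have h1 : (w.head : G) = 1 := by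
      rw [hval, hnil, lprod_nil, mul_one] at hx
      exact hx
    have h2 : w.head = 1 := Subtype.ext h1
    rw [hxw, NormalWord.prod, h2, map_one, one_mul]
    have : w.toWord = CoprodI.Word.empty := by
      ext1
      exact hnil
    rw [this, CoprodI.Word.prod_empty, map_one]
  · exfalso
    have hC : ∀ s ∈ w.toList, (s.2 : G) ∉ A ⊓ B := by
      intro s hs hmem
      have h1 : s.2 ∈ d.set s.1 := w.normalized s.1 s.2 (by simpa using hs)
      have h2 : s.2 ∈ (baseIncl A B s.1).range := (mem_range_baseIncl_iff A B s.1 s.2).2 hmem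
      -- the only element of the transversal in the base range is `1`
      have h3 : s.2 = 1 := by
        have hc := d.compl s.1
        have := hc.existsUnique (s.2 : ↥(fac A B s.1))
        obtain ⟨y, -, hy⟩ := this
        have e1 := hy (⟨s.2, h2⟩, ⟨1, d.one_mem s.1⟩) (by simp)
        have e2 := hy (⟨1, one_mem _⟩, ⟨s.2, h1⟩) (by simp)
        have := congrArg (fun z => (z.2 : ↥(fac A B s.1))) (e1.trans e2.symm)
        simpa using this.symm
      exact w.ne_one s hs h3
    have hnot := h.lprod_not_mem w.toList hnil w.chain_ne hC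
    apply hnot
    have : lprod A B w.toList = ((w.head : G))⁻¹ := by
      rw [hval] at hx
      exact eq_inv_of_mul_eq_one_right hx
    rw [this]
    exact inv_mem w.head.2

/-- range of the canonical map = subgroup generated by the two factors -/
theorem toGroup_range : (toGroup A B).range = A ⊔ B := by
  apply le_antisymm
  · rintro _ ⟨x, rfl⟩
    induction x using PushoutI.induction_on with
    | of i g =>
      rw [toGroup_of]
      cases i
      · exact Subgroup.mem_sup_left g.2
      · exact Subgroup.mem_sup_right g.2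
    | base c =>
      rw [toGroup_base]
      exact Subgroup.mem_sup_left c.2.1
    | mul x y hx hy =>
      rw [map_mul]
      exact mul_mem hx hy
  · rw [sup_le_iff]
    constructor
    · intro a ha
      exact ⟨PushoutI.of false ⟨a, ha⟩, toGroup_of A B false ⟨a, ha⟩⟩
    · intro b hb
      exact ⟨PushoutI.of true ⟨b, hb⟩, toGroup_of A B true ⟨b, hb⟩⟩

/-- the two homs to glue, indexed by `Bool` -/
def facHom {T : Type*} [Group T] (φ₁ : ↥A →* T) (φ₂ : ↥B →* T) : ∀ i, ↥(fac A B i) →* T
  | false => φ₁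
  | true => φ₂

/-- under ping-pong + generation, the amalgam is `G` -/
noncomputable def PingPong.equiv (h : PingPong (A := A) (B := B) S) (hgen : A ⊔ B = ⊤) :
    Amalg A B ≃* G :=
  MulEquiv.ofBijective (toGroup A B) ⟨h.toGroup_injective, by
    rw [← MonoidHom.range_eq_top, toGroup_range, hgen]⟩

lemma PingPong.equiv_apply (h : PingPong (A := A) (B := B) S) (hgen : A ⊔ B = ⊤)
    (x : Amalg A B) : h.equiv hgen x = toGroup A B x := rfl

lemma PingPong.equiv_symm_coe (h : PingPong (A := A) (B := B) S) (hgen : A ⊔ B = ⊤)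
    (i : Bool) (g : ↥(fac A B i)) : (h.equiv hgen).symm (g : G) = PushoutI.of i g := by
  rw [MulEquiv.symm_apply_eq, PingPong.equiv_apply, toGroup_of]

/-- the glued homomorphism on the amalgam -/
def glueHom {T : Type*} [Group T] (φ₁ : ↥A →* T) (φ₂ : ↥B →* T)
    (hagree : ∀ (c : G) (hA : c ∈ A) (hB : c ∈ B), φ₁ ⟨c, hA⟩ = φ₂ ⟨c, hB⟩) :
    Amalg A B →* T :=
  PushoutI.lift (facHom φ₁ φ₂) (φ₁.comp (Subgroup.inclusion inf_le_left)) (by
    intro i
    cases i
    · rfl
    · ext c
      exact (hagree c c.2.1 c.2.2).symm)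

lemma glueHom_of {T : Type*} [Group T] (φ₁ : ↥A →* T) (φ₂ : ↥B →* T)
    (hagree : ∀ (c : G) (hA : c ∈ A) (hB : c ∈ B), φ₁ ⟨c, hA⟩ = φ₂ ⟨c, hB⟩)
    (i : Bool) (g : ↥(fac A B i)) :
    glueHom φ₁ φ₂ hagree (PushoutI.of i g) = facHom φ₁ φ₂ i g := by
  rw [glueHom, PushoutI.lift_of]

lemma glueHom_base {T : Type*} [Group T] (φ₁ : ↥A →* T) (φ₂ : ↥B →* T)
    (hagree : ∀ (c : G) (hA : c ∈ A) (hB : c ∈ B), φ₁ ⟨c, hA⟩ = φ₂ ⟨c, hB⟩)
    (c : ↥(A ⊓ B)) :
    glueHom φ₁ φ₂ hagree (PushoutI.base _ c) = φ₁ ⟨c, c.2.1⟩ := by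
  rw [glueHom, PushoutI.lift_base]
  rfl

/-- **Amalgam theorem (gluing form).**  Under the ping-pong hypotheses, if `A` and `B` generate `G`,
two homomorphisms on `A` and `B` agreeing on `A ⊓ B` extend uniquely to `G`. -/
theorem PingPong.glue (h : PingPong (A := A) (B := B) S) (hgen : A ⊔ B = ⊤)
    {T : Type*} [Group T] (φ₁ : ↥A →* T) (φ₂ : ↥B →* T)
    (hagree : ∀ (c : G) (hA : c ∈ A) (hB : c ∈ B), φ₁ ⟨c, hA⟩ = φ₂ ⟨c, hB⟩) :
    ∃! φ : G →* T, (∀ a : ↥A, φ a = φ₁ a) ∧ (∀ b : ↥B, φ b = φ₂ b) := by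
  refine ⟨(glueHom φ₁ φ₂ hagree).comp (h.equiv hgen).symm.toMonoidHom, ⟨?_, ?_⟩, ?_⟩
  · intro a
    show glueHom φ₁ φ₂ hagree ((h.equiv hgen).symm (a : G)) = φ₁ a
    have h1 := h.equiv_symm_coe hgen false (⟨a.1, a.2⟩ : ↥(fac A B false))
    have h2 := glueHom_of φ₁ φ₂ hagree false (⟨a.1, a.2⟩ : ↥(fac A B false))
    exact (congrArg _ h1).trans h2
  · intro b
    show glueHom φ₁ φ₂ hagree ((h.equiv hgen).symm (b : G)) = φ₂ b
    have h1 := h.equiv_symm_coe hgen true (⟨b.1, b.2⟩ : ↥(fac A B true))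
    have h2 := glueHom_of φ₁ φ₂ hagree true (⟨b.1, b.2⟩ : ↥(fac A B true))
    exact (congrArg _ h1).trans h2
  · rintro φ ⟨hφ₁, hφ₂⟩
    have hcomp : φ.comp (h.equiv hgen).toMonoidHom = glueHom φ₁ φ₂ hagree := by
      apply PushoutI.hom_ext
      · intro i
        ext g
        show φ (toGroup A B (PushoutI.of i g)) = glueHom φ₁ φ₂ hagree (PushoutI.of i g)
        rw [toGroup_of, glueHom_of]
        cases i
        · exact hφ₁ g
        · exact hφ₂ g
      · ext c
        show φ (toGroup A B (PushoutI.base _ c)) = glueHom φ₁ φ₂ hagree (PushoutI.base _ c)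
        rw [toGroup_base, glueHom_base]
        exact hφ₁ ⟨c, c.2.1⟩
    ext g
    show φ g = glueHom φ₁ φ₂ hagree ((h.equiv hgen).symm g)
    rw [← hcomp]
    show φ g = φ (h.equiv hgen ((h.equiv hgen).symm g))
    rw [MulEquiv.apply_symm_apply]

lemma fac_le_sup (i : Bool) : fac A B i ≤ A ⊔ B := by
  cases i
  · exact le_sup_left
  · exact le_sup_right

/-- under ping-pong alone, the amalgam is the subgroup generated by the two factors -/
noncomputable def PingPong.equivSup (h : PingPong (A := A) (B := B) S) :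
    Amalg A B ≃* ↥(A ⊔ B) :=
  (MonoidHom.ofInjective h.toGroup_injective).trans (MulEquiv.subgroupCongr (toGroup_range (A := A) (B := B)))

lemma PingPong.coe_equivSup (h : PingPong (A := A) (B := B) S) (x : Amalg A B) :
    ((h.equivSup x : ↥(A ⊔ B)) : G) = toGroup A B x := rfl

lemma PingPong.equivSup_symm_coe (h : PingPong (A := A) (B := B) S)
    (i : Bool) (g : ↥(fac A B i)) :
    h.equivSup.symm ⟨(g : G), fac_le_sup i g.2⟩ = PushoutI.of i g := by
  rw [MulEquiv.symm_apply_eq]
  apply Subtype.ext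
  rw [PingPong.coe_equivSup, toGroup_of]

/-- **Amalgam theorem, gluing form on the generated subgroup.** -/
theorem PingPong.glueSup (h : PingPong (A := A) (B := B) S)
    {T : Type*} [Group T] (φ₁ : ↥A →* T) (φ₂ : ↥B →* T)
    (hagree : ∀ (c : G) (hA : c ∈ A) (hB : c ∈ B), φ₁ ⟨c, hA⟩ = φ₂ ⟨c, hB⟩) :
    ∃! φ : ↥(A ⊔ B) →* T, (∀ (a : G) (ha : a ∈ A), φ ⟨a, Subgroup.mem_sup_left ha⟩ = φ₁ ⟨a, ha⟩) ∧
      (∀ (b : G) (hb : b ∈ B), φ ⟨b, Subgroup.mem_sup_right hb⟩ = φ₂ ⟨b, hb⟩) := by
  refine ⟨(glueHom φ₁ φ₂ hagree).comp h.equivSup.symm.toMonoidHom, ⟨?_, ?_⟩, ?_⟩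
  · intro a ha
    have h1 := h.equivSup_symm_coe false (⟨a, ha⟩ : ↥(fac A B false))
    have h2 := glueHom_of φ₁ φ₂ hagree false (⟨a, ha⟩ : ↥(fac A B false))
    exact (congrArg _ h1).trans h2
  · intro b hb
    have h1 := h.equivSup_symm_coe true (⟨b, hb⟩ : ↥(fac A B true))
    have h2 := glueHom_of φ₁ φ₂ hagree true (⟨b, hb⟩ : ↥(fac A B true))
    exact (congrArg _ h1).trans h2
  · rintro φ ⟨hφ₁, hφ₂⟩
    have hcomp : φ.comp h.equivSup.toMonoidHom = glueHom φ₁ φ₂ hagree := by
      apply PushoutI.hom_ext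
      · intro i
        ext g
        show φ (h.equivSup (PushoutI.of i g)) = glueHom φ₁ φ₂ hagree (PushoutI.of i g)
        rw [glueHom_of]
        have e1 : h.equivSup (PushoutI.of i g) = ⟨(g : G), fac_le_sup i g.2⟩ := by
          apply Subtype.ext
          rw [PingPong.coe_equivSup, toGroup_of]
        rw [e1]
        cases i
        · exact hφ₁ g.1 g.2
        · exact hφ₂ g.1 g.2
      · ext c
        show φ (h.equivSup (PushoutI.base _ c)) = glueHom φ₁ φ₂ hagree (PushoutI.base _ c)
        rw [glueHom_base]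
        have e1 : h.equivSup (PushoutI.base _ c) = ⟨(c : G), Subgroup.mem_sup_left c.2.1⟩ := by
          apply Subtype.ext
          rw [PingPong.coe_equivSup, toGroup_base]
        rw [e1]
        exact hφ₁ c.1 c.2.1
    ext g
    show φ g = glueHom φ₁ φ₂ hagree (h.equivSup.symm g)
    rw [← hcomp]
    show φ g = φ (h.equivSup (h.equivSup.symm g))
    rw [MulEquiv.apply_symm_apply]

/-- gluing on a subgroup `D` known to be generated by `A` and `B` -/
theorem PingPong.glueOn (h : PingPong (A := A) (B := B) S) (D : Subgroup G) (hD : A ⊔ B = D)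
    {T : Type*} [Group T] (φ₁ : ↥A →* T) (φ₂ : ↥B →* T)
    (hagree : ∀ (c : G) (hA : c ∈ A) (hB : c ∈ B), φ₁ ⟨c, hA⟩ = φ₂ ⟨c, hB⟩) :
    ∃! φ : ↥D →* T,
      (∀ (a : G) (ha : a ∈ A), φ ⟨a, hD ▸ Subgroup.mem_sup_left ha⟩ = φ₁ ⟨a, ha⟩) ∧
      (∀ (b : G) (hb : b ∈ B), φ ⟨b, hD ▸ Subgroup.mem_sup_right hb⟩ = φ₂ ⟨b, hb⟩) := by
  subst hD
  exact h.glueSup φ₁ φ₂ hagree

end PingPong

end Fermat.Agent.S41.Amalgam95
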