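/-
S41 / [AMALGAM] (helper95): the ping-pong of `Γ₀(N)` and `δ Γ₀(N) δ⁻¹` on `ℚ × ℚ` with the
`q`-adic norm, hence injectivity of `Γ₀(N) *_{Γ₀(N) ∩ Γ⁰(q)} δΓ₀(N)δ⁻¹ → SL(2,ℚ)`.
-/
import Fermat.Agent.S41.Amalgam95.Groups
import Fermat.Agent.S41.Amalgam95.PingPong

set_option autoImplicit false
set_option linter.unusedSectionVars false

namespace Fermat.Agent.S41.Amalgam95

open Matrix

section Norm

variable (q : ℕ) [hqp : Fact q.Prime]

/-- the `q`-adic norm -/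
local notation "ν" => padicNorm q

lemma nu_int_mul_le (m : ℤ) (x : ℚ) : ν ((m : ℚ) * x) ≤ ν x := by
  rw [padicNorm.mul]
  calc ν (m : ℚ) * ν x ≤ 1 * ν x :=
        mul_le_mul_of_nonneg_right (padicNorm.of_int m) (padicNorm.nonneg x)
    _ = ν x := one_mul _

lemma nu_int_mul_eq (m : ℤ) (hm : ¬ (q : ℤ) ∣ m) (x : ℚ) : ν ((m : ℚ) * x) = ν x := by
  rw [padicNorm.mul, (padicNorm.int_eq_one_iff m).2 hm, one_mul]

lemma nu_q : ν (q : ℚ) = (q : ℚ)⁻¹ := padicNorm.padicNorm_p_of_prime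

lemma q_pos : (0 : ℚ) < q := by exact_mod_cast hqp.out.pos

lemma one_lt_q : (1 : ℚ) < q := by exact_mod_cast hqp.out.one_lt

lemma nu_q_mul (x : ℚ) : ν ((q : ℚ) * x) = ν x / q := by
  rw [padicNorm.mul, nu_q]
  ring

lemma nu_div_q (x : ℚ) : ν (x / q) = ν x * q := by
  rw [padicNorm.div, nu_q]
  field_simp

lemma nu_div_lt (x : ℚ) (hx : x ≠ 0) : ν x / q < ν x := by
  have h0 : 0 < ν x := by
    rcases (padicNorm.nonneg x).lt_or_eq with h | h
    · exact h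
    · exact absurd (padicNorm.zero_of_padicNorm_eq_zero h.symm) hx
  rw [div_lt_iff₀ (q_pos q)]
  nlinarith [one_lt_q q]

lemma nu_add_le (x y : ℚ) : ν (x + y) ≤ max (ν x) (ν y) := padicNorm.nonarchimedean

lemma nu_add_eq_of_lt {x y : ℚ} (h : ν x < ν y) : ν (x + y) = ν y := by
  rw [padicNorm.add_eq_max_of_ne h.ne, max_eq_right h.le]

lemma nu_add_eq_of_lt' {x y : ℚ} (h : ν y < ν x) : ν (x + y) = ν x := by
  rw [add_comm]
  exact nu_add_eq_of_lt q h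

lemma nu_pos_of_ne {x : ℚ} (hx : x ≠ 0) : 0 < ν x := by
  rcases (padicNorm.nonneg x).lt_or_eq with h | h
  · exact h
  · exact absurd (padicNorm.zero_of_padicNorm_eq_zero h.symm) hx

lemma ne_of_nu_pos {x : ℚ} (hx : 0 < ν x) : x ≠ 0 := by
  rintro rfl
  simp at hx

end Norm

section Sets

variable (N q : ℕ) [hqp : Fact q.Prime]

local notation "ν" => padicNorm q

/-- the two ping-pong sets: `false ↦ {|x| < |y|}`, `true ↦ {|y| ≤ |x|, x ≠ 0}` -/
def PPset : Bool → Set (ℚ × ℚ)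
  | false => {v | ν v.1 < ν v.2}
  | true => {v | ν v.2 ≤ ν v.1 ∧ v.1 ≠ 0}

lemma mem_PPset_false (v : ℚ × ℚ) : v ∈ PPset q false ↔ ν v.1 < ν v.2 := Iff.rfl
lemma mem_PPset_true (v : ℚ × ℚ) : v ∈ PPset q true ↔ ν v.2 ≤ ν v.1 ∧ v.1 ≠ 0 := Iff.rfl

lemma q_ne_zero : q ≠ 0 := hqp.out.ne_zero

variable (hqN : ¬ q ∣ N)

/-- an element of `Γ₀(N)` outside the base has `q ∤ b` -/
lemma not_dvd_b_of_not_mem {g : SLQ} (hg : g ∉ GamQ N ⊓ GamQδ N q (q_ne_zero q))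
    {a b c d : ℤ} (h00 : g 0 0 = a) (h01 : g 0 1 = b) (h10 : g 1 0 = (N : ℚ) * c)
    (h11 : g 1 1 = d) : ¬ (q : ℤ) ∣ b := by
  rintro ⟨b', rfl⟩
  apply hg
  rw [mem_inf_iff]
  exact ⟨a, b', c, d, h00, by rw [h01]; push_cast; ring, h10, h11⟩

include hqN in
/-- an element of `δΓ₀(N)δ⁻¹` outside the base has `q ∤ N c` -/
lemma not_dvd_c_of_not_mem {g : SLQ} (hg : g ∉ GamQ N ⊓ GamQδ N q (q_ne_zero q))
    {a b c d : ℤ} (h00 : g 0 0 = a) (h01 : g 0 1 = (q : ℚ) * b) (h10 : g 1 0 = (N : ℚ) * c / q)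
    (h11 : g 1 1 = d) : ¬ (q : ℤ) ∣ (N : ℤ) * c := by
  intro hdvd
  have hq' : (q : ℚ) ≠ 0 := by exact_mod_cast q_ne_zero q
  have hqc : (q : ℤ) ∣ c := by
    have hprime : Prime (q : ℤ) := Nat.prime_iff_prime_int.mp hqp.out
    rcases hprime.dvd_or_dvd hdvd with h | h
    · exact absurd (Int.natCast_dvd_natCast.mp h) hqN
    · exact h
  obtain ⟨c', rfl⟩ := hqc
  apply hg
  rw [mem_inf_iff]
  refine ⟨a, b, c', d, h00, h01, ?_, h11⟩
  rw [h10]
  push_cast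
  field_simp

include hqN in
/-- **the ping-pong table** of `Γ₀(N)` and `δΓ₀(N)δ⁻¹` on `ℚ × ℚ` -/
theorem pingPongSL :
    PingPong (A := GamQ N) (B := GamQδ N q (q_ne_zero q)) (PPset q) := by
  have hq' : (q : ℚ) ≠ 0 := by exact_mod_cast q_ne_zero q
  have hqN' : ¬ (q : ℤ) ∣ (N : ℤ) := fun h => hqN (Int.natCast_dvd_natCast.mp h)
  refine ⟨?_, ?_, ?_, ?_, ?_⟩
  · -- move
    intro i g hg hnot v hv
    cases i
    · -- `g ∈ Γ₀(N)`, `v ∈ {|x| < |y|}`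
      obtain ⟨a, b, c, d, h00, h01, h10, h11⟩ := (mem_GamQ_iff N g).1 hg
      have hb := not_dvd_b_of_not_mem N q hnot h00 h01 h10 h11
      have hv' : ν v.1 < ν v.2 := hv
      show ν (g 1 0 * v.1 + g 1 1 * v.2) ≤ ν (g 0 0 * v.1 + g 0 1 * v.2) ∧
        g 0 0 * v.1 + g 0 1 * v.2 ≠ 0
      rw [h00, h01, h10, h11]
      have h1 : ν ((a : ℚ) * v.1) < ν ((b : ℚ) * v.2) := by
        rw [nu_int_mul_eq q b hb]
        exact lt_of_le_of_lt (nu_int_mul_le q a _) hv'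
      have h2 : ν ((a : ℚ) * v.1 + (b : ℚ) * v.2) = ν v.2 := by
        rw [nu_add_eq_of_lt q h1, nu_int_mul_eq q b hb]
      have h3 : ν ((N : ℚ) * c * v.1 + (d : ℚ) * v.2) ≤ ν v.2 := by
        refine le_trans (nu_add_le q _ _) (max_le ?_ ?_)
        · have : ((N : ℚ) * c * v.1) = (((N : ℤ) * c : ℤ) : ℚ) * v.1 := by push_cast; ring
          rw [this]
          exact le_trans (nu_int_mul_le q _ _) hv'.le
        · exact nu_int_mul_le q d _
      refine ⟨by rw [h2]; exact h3, ?_⟩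
      apply ne_of_nu_pos q
      rw [h2]
      exact lt_of_le_of_lt (padicNorm.nonneg _) hv'
    · -- `g ∈ δΓ₀(N)δ⁻¹`, `v ∈ {|y| ≤ |x|, x ≠ 0}`
      obtain ⟨a, b, c, d, h00, h01, h10, h11⟩ := (mem_GamQδ_iff N q _ g).1 hg
      have hc := not_dvd_c_of_not_mem N q hqN hnot h00 h01 h10 h11
      obtain ⟨hv1, hv2⟩ : ν v.2 ≤ ν v.1 ∧ v.1 ≠ 0 := hv
      show ν (g 0 0 * v.1 + g 0 1 * v.2) < ν (g 1 0 * v.1 + g 1 1 * v.2)
      rw [h00, h01, h10, h11]
      have hpos : 0 < ν v.1 := nu_pos_of_ne q hv2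
      have h1 : ν ((N : ℚ) * c / q * v.1) = ν v.1 * q := by
        have : (N : ℚ) * c / q * v.1 = ((((N : ℤ) * c : ℤ) : ℚ) * v.1) / q := by
          push_cast; ring
        rw [this, nu_div_q, nu_int_mul_eq q _ hc]
      have hlt : ν v.1 < ν v.1 * q := by nlinarith [one_lt_q q]
      have h2 : ν ((d : ℚ) * v.2) < ν ((N : ℚ) * c / q * v.1) := by
        rw [h1]
        exact lt_of_le_of_lt (le_trans (nu_int_mul_le q d _) hv1) hlt
      rw [nu_add_eq_of_lt' q h2, h1]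
      refine lt_of_le_of_lt (le_trans (nu_add_le q _ _) (max_le ?_ ?_)) hlt
      · exact nu_int_mul_le q a _
      · rw [mul_assoc, nu_q_mul]
        refine le_trans ?_ hv1
        refine le_trans (div_le_self (padicNorm.nonneg _) (one_lt_q q).le) ?_
        exact nu_int_mul_le q b _
  · -- base
    intro g hg i v hv
    obtain ⟨a, b, c, d, h00, h01, h10, h11⟩ := (mem_inf_iff N q _ g).1 hg
    have hdet := det_eq g
    rw [h00, h01, h10, h11] at hdet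
    have hdetZ : a * d - (q : ℤ) * b * ((N : ℤ) * c) = 1 := by exact_mod_cast hdet
    have ha : ¬ (q : ℤ) ∣ a := by
      rintro ⟨a', rfl⟩
      have : (q : ℤ) ∣ 1 := ⟨a' * d - b * ((N : ℤ) * c), by rw [← hdetZ]; ring⟩
      exact (Nat.prime_iff_prime_int.mp hqp.out).not_dvd_one this
    have hd : ¬ (q : ℤ) ∣ d := by
      rintro ⟨d', rfl⟩
      have : (q : ℤ) ∣ 1 := ⟨a * d' - b * ((N : ℤ) * c), by rw [← hdetZ]; ring⟩
      exact (Nat.prime_iff_prime_int.mp hqp.out).not_dvd_one this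
    have hNc : ∀ x : ℚ, ν ((N : ℚ) * c * x) ≤ ν x := by
      intro x
      have : ((N : ℚ) * c * x) = (((N : ℤ) * c : ℤ) : ℚ) * x := by push_cast; ring
      rw [this]
      exact nu_int_mul_le q _ _
    have hqb : ∀ x : ℚ, ν ((q : ℚ) * b * x) ≤ ν x / q := by
      intro x
      rw [mul_assoc, nu_q_mul]
      exact div_le_div_of_nonneg_right (nu_int_mul_le q b _) (q_pos q).le
    cases i
    · have hv' : ν v.1 < ν v.2 := hv
      show ν (g 0 0 * v.1 + g 0 1 * v.2) < ν (g 1 0 * v.1 + g 1 1 * v.2)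
      rw [h00, h01, h10, h11]
      have hy : v.2 ≠ 0 := ne_of_nu_pos q (lt_of_le_of_lt (padicNorm.nonneg _) hv')
      have h1 : ν ((N : ℚ) * c * v.1) < ν ((d : ℚ) * v.2) := by
        rw [nu_int_mul_eq q d hd]
        exact lt_of_le_of_lt (hNc _) hv'
      rw [nu_add_eq_of_lt q h1, nu_int_mul_eq q d hd]
      refine lt_of_le_of_lt (nu_add_le q _ _) (max_lt ?_ ?_)
      · rw [nu_int_mul_eq q a ha]; exact hv'
      · exact lt_of_le_of_lt (hqb _) (nu_div_lt q _ hy)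
    · obtain ⟨hv1, hv2⟩ : ν v.2 ≤ ν v.1 ∧ v.1 ≠ 0 := hv
      show ν (g 1 0 * v.1 + g 1 1 * v.2) ≤ ν (g 0 0 * v.1 + g 0 1 * v.2) ∧
        g 0 0 * v.1 + g 0 1 * v.2 ≠ 0
      rw [h00, h01, h10, h11]
      have hpos : 0 < ν v.1 := nu_pos_of_ne q hv2
      have h1 : ν ((q : ℚ) * b * v.2) < ν ((a : ℚ) * v.1) := by
        rw [nu_int_mul_eq q a ha]
        refine lt_of_le_of_lt (hqb _) ?_
        refine lt_of_le_of_lt (div_le_div_of_nonneg_right hv1 (q_pos q).le) ?_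
        exact nu_div_lt q _ hv2
      have h2 : ν ((a : ℚ) * v.1 + (q : ℚ) * b * v.2) = ν v.1 := by
        rw [nu_add_eq_of_lt' q h1, nu_int_mul_eq q a ha]
      refine ⟨?_, ?_⟩
      · rw [h2]
        refine le_trans (nu_add_le q _ _) (max_le (hNc _) ?_)
        exact le_trans (nu_int_mul_le q d _) hv1
      · apply ne_of_nu_pos q
        rw [h2]
        exact hpos
  · -- disjoint
    rw [Set.disjoint_left]
    rintro v hv1 ⟨hv2, -⟩
    have hv1' : ν v.1 < ν v.2 := hv1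
    exact absurd hv2 (not_le.mpr hv1')
  · -- nonempty
    intro i
    cases i
    · exact ⟨(0, 1), by show ν (0 : ℚ) < ν (1 : ℚ); simp⟩
    · exact ⟨(1, 0), by show ν (0 : ℚ) ≤ ν (1 : ℚ) ∧ (1 : ℚ) ≠ 0; simp⟩
  · -- strict
    intro i g hg hnot
    cases i
    · -- `g ∈ Γ₀(N) \ base`: keep a point of `{|y| ≤ |x|}` inside
      obtain ⟨a, b, c, d, h00, h01, h10, h11⟩ := (mem_GamQ_iff N g).1 hg
      have hb := not_dvd_b_of_not_mem N q hnot h00 h01 h10 h11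
      have hNc1 : ν ((N : ℚ) * c) ≤ 1 := by
        have : ((N : ℚ) * c) = (((N : ℤ) * c : ℤ) : ℚ) := by push_cast; ring
        rw [this]; exact padicNorm.of_int _
      by_cases ha : (q : ℤ) ∣ a
      · refine ⟨(1, 1), by show ν (1 : ℚ) ≤ ν (1 : ℚ) ∧ (1 : ℚ) ≠ 0; simp, ?_⟩
        show ν (g 1 0 * 1 + g 1 1 * 1) ≤ ν (g 0 0 * 1 + g 0 1 * 1) ∧ g 0 0 * 1 + g 0 1 * 1 ≠ 0
        rw [h00, h01, h10, h11, mul_one, mul_one, mul_one, mul_one]
        have h1 : ν (a : ℚ) < ν (b : ℚ) := by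
          rw [(padicNorm.int_eq_one_iff b).2 hb]
          exact (padicNorm.int_lt_one_iff a).2 ha
        have h2 : ν ((a : ℚ) + b) = 1 := by
          rw [nu_add_eq_of_lt q h1, (padicNorm.int_eq_one_iff b).2 hb]
        refine ⟨?_, ?_⟩
        · rw [h2]
          exact le_trans (nu_add_le q _ _) (max_le hNc1 (padicNorm.of_int d))
        · apply ne_of_nu_pos q
          rw [h2]
          exact one_pos
      · refine ⟨(1, 0), by show ν (0 : ℚ) ≤ ν (1 : ℚ) ∧ (1 : ℚ) ≠ 0; simp, ?_⟩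
        show ν (g 1 0 * 1 + g 1 1 * 0) ≤ ν (g 0 0 * 1 + g 0 1 * 0) ∧ g 0 0 * 1 + g 0 1 * 0 ≠ 0
        rw [h00, h01, h10, h11, mul_one, mul_one, mul_zero, mul_zero, add_zero, add_zero]
        have h2 : ν (a : ℚ) = 1 := (padicNorm.int_eq_one_iff a).2 ha
        refine ⟨by rw [h2]; exact hNc1, ?_⟩
        apply ne_of_nu_pos q
        rw [h2]
        exact one_pos
    · -- `g ∈ δΓ₀(N)δ⁻¹ \ base`: keep a point of `{|x| < |y|}` inside
      obtain ⟨a, b, c, d, h00, h01, h10, h11⟩ := (mem_GamQδ_iff N q _ g).1 hg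
      have hc := not_dvd_c_of_not_mem N q hqN hnot h00 h01 h10 h11
      have hqb1 : ν ((q : ℚ) * b) ≤ (q : ℚ)⁻¹ := by
        rw [nu_q_mul, div_eq_mul_inv]
        exact mul_le_of_le_one_left (inv_nonneg.mpr (q_pos q).le) (padicNorm.of_int b)
      have hqinv : (q : ℚ)⁻¹ < 1 := inv_lt_one_of_one_lt₀ (one_lt_q q)
      by_cases hd : (q : ℤ) ∣ d
      · refine ⟨((q : ℚ), 1), by show ν (q : ℚ) < ν (1 : ℚ); rw [nu_q]; simpa using hqinv, ?_⟩
        show ν (g 0 0 * q + g 0 1 * 1) < ν (g 1 0 * q + g 1 1 * 1)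
        rw [h00, h01, h10, h11, mul_one, mul_one]
        have e1 : (N : ℚ) * c / q * q = (((N : ℤ) * c : ℤ) : ℚ) := by
          push_cast; field_simp
        rw [e1]
        have h1 : ν (d : ℚ) < ν ((((N : ℤ) * c : ℤ)) : ℚ) := by
          rw [(padicNorm.int_eq_one_iff _).2 hc]
          exact (padicNorm.int_lt_one_iff d).2 hd
        rw [nu_add_eq_of_lt' q h1, (padicNorm.int_eq_one_iff _).2 hc]
        refine lt_of_le_of_lt (le_trans (nu_add_le q _ _) (max_le ?_ hqb1)) hqinv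
        rw [mul_comm, nu_q_mul, div_eq_mul_inv]
        exact mul_le_of_le_one_left (inv_nonneg.mpr (q_pos q).le) (padicNorm.of_int a)
      · refine ⟨(0, 1), by show ν (0 : ℚ) < ν (1 : ℚ); simp, ?_⟩
        show ν (g 0 0 * 0 + g 0 1 * 1) < ν (g 1 0 * 0 + g 1 1 * 1)
        rw [h00, h01, h10, h11, mul_zero, mul_zero, zero_add, zero_add, mul_one, mul_one,
          (padicNorm.int_eq_one_iff d).2 hd]
        exact lt_of_le_of_lt hqb1 hqinv

/-- **Injectivity**: `Γ₀(N) *_{Γ₀(N) ∩ δΓ₀(N)δ⁻¹} δΓ₀(N)δ⁻¹ → SL(2,ℚ)` is injective. -/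
theorem toGroup_injective_SL (hqN : ¬ q ∣ N) :
    Function.Injective (toGroup (GamQ N) (GamQδ N q (q_ne_zero q))) :=
  (pingPongSL N q hqN).toGroup_injective

end Sets

end Fermat.Agent.S41.Amalgam95
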