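/-
S41 / [AMALGAM] (helper95): the group `Δ = Γ₀(N)[1/q] ⊆ SL(2,ℚ)` (entries in `ℤ[1/q]`, lower left
entry in `N ℤ[1/q]`) and the generation theorem `Γ₀(N) ⊔ δΓ₀(N)δ⁻¹ = Δ`.
-/
import Fermat.Agent.S41.Amalgam95.PingPongSL

set_option autoImplicit false
set_option linter.unusedSectionVars false

namespace Fermat.Agent.S41.Amalgam95

open Matrix

/-- `x ∈ ℤ[1/q]` -/
def IsAway (q : ℕ) (x : ℚ) : Prop := ∃ n : ℕ, ∃ m : ℤ, x * (q : ℚ) ^ n = m

namespace IsAway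

variable {q : ℕ} {x y : ℚ}

lemma of_int (m : ℤ) : IsAway q (m : ℚ) := ⟨0, m, by simp⟩

lemma zero : IsAway q 0 := by simpa using of_int (q := q) 0
lemma one : IsAway q 1 := by simpa using of_int (q := q) 1

lemma neg (hx : IsAway q x) : IsAway q (-x) := by
  obtain ⟨n, m, h⟩ := hx
  exact ⟨n, -m, by push_cast; rw [← h]; ring⟩

lemma add (hx : IsAway q x) (hy : IsAway q y) : IsAway q (x + y) := by
  obtain ⟨n, m, h⟩ := hx
  obtain ⟨k, l, h'⟩ := hy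
  refine ⟨n + k, m * (q : ℤ) ^ k + l * (q : ℤ) ^ n, ?_⟩
  push_cast
  rw [← h, ← h']
  ring

lemma mul (hx : IsAway q x) (hy : IsAway q y) : IsAway q (x * y) := by
  obtain ⟨n, m, h⟩ := hx
  obtain ⟨k, l, h'⟩ := hy
  refine ⟨n + k, m * l, ?_⟩
  push_cast
  rw [← h, ← h']
  ring

lemma sub (hx : IsAway q x) (hy : IsAway q y) : IsAway q (x - y) := by
  rw [sub_eq_add_neg]
  exact hx.add hy.neg

lemma div_q (hq : q ≠ 0) (hx : IsAway q x) : IsAway q (x / q) := by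
  obtain ⟨n, m, h⟩ := hx
  have hq' : (q : ℚ) ≠ 0 := by exact_mod_cast hq
  refine ⟨n + 1, m, ?_⟩
  rw [← h, pow_succ]
  field_simp

/-- common denominator: `q^(2n) x ∈ ℤ` for some `n` -/
lemma exists_even (hx : IsAway q x) : ∃ n : ℕ, ∃ m : ℤ, x * (q : ℚ) ^ (2 * n) = m := by
  obtain ⟨n, m, h⟩ := hx
  refine ⟨n, m * (q : ℤ) ^ n, ?_⟩
  push_cast
  rw [← h, two_mul, pow_add]
  ring

end IsAway

/-- `Δ = Γ₀(N)[1/q]` -/
def DeltaQ (N q : ℕ) : Subgroup SLQ where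
  carrier := {g | IsAway q (g 0 0) ∧ IsAway q (g 0 1) ∧
    (∃ r : ℚ, IsAway q r ∧ g 1 0 = (N : ℚ) * r) ∧ IsAway q (g 1 1)}
  one_mem' := by
    refine ⟨?_, ?_, ⟨0, IsAway.zero, ?_⟩, ?_⟩
    · rw [one_00]; exact IsAway.one
    · rw [one_01]; exact IsAway.zero
    · rw [one_10]; ring
    · rw [one_11]; exact IsAway.one
  mul_mem' := by
    rintro g h ⟨g00, g01, ⟨r, hr, g10⟩, g11⟩ ⟨h00, h01, ⟨s, hs, h10⟩, h11⟩
    refine ⟨?_, ?_, ⟨r * h 0 0 + g 1 1 * s, (hr.mul h00).add (g11.mul hs), ?_⟩, ?_⟩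
    · rw [mul_00]
      refine (g00.mul h00).add (g01.mul ?_)
      rw [h10]; exact (IsAway.of_int N).mul hs
    · rw [mul_01]; exact (g00.mul h01).add (g01.mul h11)
    · rw [mul_10, g10, h10]; ring
    · rw [mul_11]
      refine (IsAway.mul ?_ h01).add (g11.mul h11)
      rw [g10]; exact (IsAway.of_int N).mul hr
  inv_mem' := by
    rintro g ⟨g00, g01, ⟨r, hr, g10⟩, g11⟩
    refine ⟨?_, ?_, ⟨-r, hr.neg, ?_⟩, ?_⟩
    · rw [inv_00]; exact g11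
    · rw [inv_01]; exact g01.neg
    · rw [inv_10, g10]; ring
    · rw [inv_11]; exact g00

lemma mem_DeltaQ_iff (N q : ℕ) (g : SLQ) :
    g ∈ DeltaQ N q ↔ IsAway q (g 0 0) ∧ IsAway q (g 0 1) ∧
      (∃ r : ℚ, IsAway q r ∧ g 1 0 = (N : ℚ) * r) ∧ IsAway q (g 1 1) := Iff.rfl

lemma GamQ_le_DeltaQ (N q : ℕ) : GamQ N ≤ DeltaQ N q := by
  intro g hg
  obtain ⟨a, b, c, d, h00, h01, h10, h11⟩ := (mem_GamQ_iff N g).1 hg
  refine ⟨?_, ?_, ⟨c, IsAway.of_int c, h10⟩, ?_⟩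
  · rw [h00]; exact IsAway.of_int a
  · rw [h01]; exact IsAway.of_int b
  · rw [h11]; exact IsAway.of_int d

lemma GamQδ_le_DeltaQ (N q : ℕ) (hq : q ≠ 0) : GamQδ N q hq ≤ DeltaQ N q := by
  intro g hg
  obtain ⟨a, b, c, d, h00, h01, h10, h11⟩ := (mem_GamQδ_iff N q hq g).1 hg
  refine ⟨?_, ?_, ⟨c / q, (IsAway.of_int c).div_q hq, ?_⟩, ?_⟩
  · rw [h00]; exact IsAway.of_int a
  · rw [h01]; exact (IsAway.of_int q).mul (IsAway.of_int b)
  · rw [h10]; ring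
  · rw [h11]; exact IsAway.of_int d

section Generation

variable (N q : ℕ) [hqp : Fact q.Prime] (hqN : ¬ q ∣ N)

/-- the subgroup generated by the two factors -/
abbrev Hgen : Subgroup SLQ := GamQ N ⊔ GamQδ N q (q_ne_zero q)

/-- `t = diag(q, 1/q)` -/
def tQ : SLQ := mkQ (q : ℚ) 0 0 ((q : ℚ)⁻¹) (by
  have hq' : (q : ℚ) ≠ 0 := by exact_mod_cast q_ne_zero q
  rw [mul_zero, sub_zero, mul_inv_cancel₀ hq'])

/-- `u(x) = [[1,x],[0,1]]` -/
def uQ (x : ℚ) : SLQ := mkQ 1 x 0 1 (by ring)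

include hqN in
lemma tQ_mem : tQ q ∈ Hgen N q := by
  have hq' : (q : ℚ) ≠ 0 := by exact_mod_cast q_ne_zero q
  -- Bezout: `u q + v N = 1`
  have hcop : IsCoprime (q : ℤ) (N : ℤ) := by
    rw [Int.isCoprime_iff_gcd_eq_one, Int.gcd_natCast_natCast]
    exact (Nat.Prime.coprime_iff_not_dvd hqp.out).2 hqN
  obtain ⟨u, v, huv⟩ := hcop
  -- `Z = [[q, 1],[-N v, u]] ∈ Γ₀(N)`
  have hdetZ : (q : ℚ) * u - 1 * ((N : ℚ) * (-v)) = 1 := by
    have : ((u * q + v * N : ℤ) : ℚ) = 1 := by rw [huv]; simp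
    push_cast at this
    linarith
  let Z : SLQ := mkQ q 1 ((N : ℚ) * (-v)) u hdetZ
  have hZ : Z ∈ GamQ N := by
    rw [mem_GamQ_iff]
    exact ⟨q, 1, -v, u, by simp [Z], by simp [Z], by simp [Z], by simp [Z]⟩
  have hY : tQ q * Z⁻¹ ∈ GamQδ N q (q_ne_zero q) := by
    rw [mem_GamQδ_iff]
    refine ⟨q * u, -1, v, 1, ?_, ?_, ?_, ?_⟩
    · rw [mul_00, inv_00, inv_10]; simp [tQ, Z]
    · rw [mul_01, inv_01, inv_11]; simp [tQ, Z]
    · rw [mul_10, inv_00, inv_10]; simp [tQ, Z]; field_simp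
    · rw [mul_11, inv_01, inv_11]; simp [tQ, Z]; field_simp
  have : tQ q = (tQ q * Z⁻¹) * Z := by group
  rw [this]
  exact mul_mem (Subgroup.mem_sup_right hY) (Subgroup.mem_sup_left hZ)

lemma uQ_int_mem (m : ℤ) : uQ (m : ℚ) ∈ Hgen N q := by
  apply Subgroup.mem_sup_left
  rw [mem_GamQ_iff]
  exact ⟨1, m, 0, 1, by simp [uQ], by simp [uQ], by simp [uQ], by simp [uQ]⟩

lemma tQ_inv_mul_uQ_mul (x : ℚ) : (tQ q)⁻¹ * uQ ((q : ℚ) ^ 2 * x) * tQ q = uQ x := by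
  have hq' : (q : ℚ) ≠ 0 := by exact_mod_cast q_ne_zero q
  apply ext_entries
  · rw [mul_00, mul_00, mul_01, inv_00, inv_01]; simp [tQ, uQ, inv_mul_cancel₀ hq']
  · rw [mul_01, mul_00, mul_01, inv_00, inv_01]; simp [tQ, uQ]; field_simp
  · rw [mul_10, mul_10, mul_11, inv_10, inv_11]; simp [tQ, uQ]
  · rw [mul_11, mul_10, mul_11, inv_10, inv_11]; simp [tQ, uQ, mul_inv_cancel₀ hq']

include hqN in
lemma uQ_mem_aux : ∀ (n : ℕ) (x : ℚ) (m : ℤ), x * (q : ℚ) ^ (2 * n) = m → uQ x ∈ Hgen N q := by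
  intro n
  induction n with
  | zero =>
    intro x m h
    have : x = m := by simpa using h
    rw [this]
    exact uQ_int_mem N q m
  | succ n ih =>
    intro x m h
    have h1 : uQ ((q : ℚ) ^ 2 * x) ∈ Hgen N q := by
      apply ih _ m
      rw [← h]
      ring
    rw [← tQ_inv_mul_uQ_mul q x]
    exact mul_mem (mul_mem (inv_mem (tQ_mem N q hqN)) h1) (tQ_mem N q hqN)

include hqN in
lemma uQ_mem {x : ℚ} (hx : IsAway q x) : uQ x ∈ Hgen N q := by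
  obtain ⟨n, m, h⟩ := hx.exists_even
  exact uQ_mem_aux N q hqN n x m h

include hqN in
/-- upper triangular elements `[[q^s, β],[0, q^{-s}]]`, `β ∈ ℤ[1/q]`, are in `H` -/
lemma upper_mem : ∀ (s : ℕ) (b : SLQ), b 0 0 = (q : ℚ) ^ s → b 1 0 = 0 → IsAway q (b 0 1) →
    b ∈ Hgen N q := by
  have hq' : (q : ℚ) ≠ 0 := by exact_mod_cast q_ne_zero q
  intro s
  induction s with
  | zero =>
    intro b h00 h10 h01
    have hdet := det_eq b
    rw [h00, h10] at hdet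
    have h11 : b 1 1 = 1 := by simpa using hdet
    have : b = uQ (b 0 1) := by
      apply ext_entries
      · rw [h00]; simp [uQ]
      · simp [uQ]
      · rw [h10]; simp [uQ]
      · rw [h11]; simp [uQ]
    rw [this]
    exact uQ_mem N q hqN h01
  | succ s ih =>
    intro b h00 h10 h01
    have h1 : b * (tQ q)⁻¹ ∈ Hgen N q := by
      apply ih
      · rw [mul_00, inv_00, inv_10, h00]; simp [tQ]; rw [pow_succ]; field_simp
      · rw [mul_10, inv_00, inv_10, h10]; simp [tQ]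
      · rw [mul_01, inv_01, inv_11]
        simp only [tQ, mkQ_01, mkQ_00, neg_zero, mul_zero, zero_add]
        exact h01.mul (IsAway.of_int q)
    have : b = (b * (tQ q)⁻¹) * tQ q := by group
    rw [this]
    exact mul_mem h1 (tQ_mem N q hqN)

include hqN in
/-- elements of `Δ` with INTEGRAL first column are in `H` -/
lemma mem_Hgen_of_col_int (g : SLQ) (hg : g ∈ DeltaQ N q) (a c : ℤ) (h00 : g 0 0 = a)
    (h10 : g 1 0 = (N : ℚ) * c) : g ∈ Hgen N q := by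
  have hq' : (q : ℚ) ≠ 0 := by exact_mod_cast q_ne_zero q
  obtain ⟨-, ⟨n2, B, hB⟩, -, ⟨n1, D, hD⟩⟩ := hg
  have hdet := det_eq g
  rw [h00, h10] at hdet
  obtain ⟨c', hc'⟩ : ∃ c' : ℤ, c' = (N : ℤ) * c := ⟨_, rfl⟩
  have hcQ : (c' : ℚ) = (N : ℚ) * c := by rw [hc']; push_cast; ring
  -- integral form of the determinant relation
  have hrel : a * D * (q : ℤ) ^ n2 - B * (q : ℤ) ^ n1 * c' = (q : ℤ) ^ (n1 + n2) := by
    have : ((a * D * (q : ℤ) ^ n2 - B * (q : ℤ) ^ n1 * c' : ℤ) : ℚ) = (((q : ℤ) ^ (n1 + n2) : ℤ) : ℚ) := by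
      push_cast
      rw [← hB, ← hD, pow_add, hcQ]
      have : ((a : ℚ) * g 1 1 - g 0 1 * ((N : ℚ) * c)) * ((q : ℚ) ^ n1 * (q : ℚ) ^ n2) =
          (q : ℚ) ^ n1 * (q : ℚ) ^ n2 := by rw [hdet, one_mul]
      linear_combination this
    exact_mod_cast this
  set e : ℕ := Int.gcd a c' with he
  have hea : (e : ℤ) ∣ a := Int.gcd_dvd_left a c'
  have hec : (e : ℤ) ∣ c' := Int.gcd_dvd_right a c'
  have hepow : (e : ℤ) ∣ (q : ℤ) ^ (n1 + n2) := by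
    rw [← hrel]
    exact dvd_sub (Dvd.dvd.mul_right (Dvd.dvd.mul_right hea _) _) (Dvd.dvd.mul_left hec _)
  have hepowN : e ∣ q ^ (n1 + n2) := by
    have : (e : ℤ) ∣ ((q ^ (n1 + n2) : ℕ) : ℤ) := by push_cast; exact hepow
    exact Int.natCast_dvd_natCast.mp this
  obtain ⟨s, -, hes⟩ := (Nat.dvd_prime_pow hqp.out).1 hepowN
  have he0 : (e : ℤ) ≠ 0 := by
    rw [hes]
    exact_mod_cast pow_ne_zero s (q_ne_zero q)
  obtain ⟨a₁, ha₁⟩ := hea
  obtain ⟨c₁, hc₁⟩ := hec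
  have hbez : (e : ℤ) = a * Int.gcdA a c' + c' * Int.gcdB a c' := Int.gcd_eq_gcd_ab a c'
  set x₀ := Int.gcdA a c'
  set y₀ := Int.gcdB a c'
  have hbez1 : a₁ * x₀ + c₁ * y₀ = 1 := by
    have : (e : ℤ) * (a₁ * x₀ + c₁ * y₀) = (e : ℤ) * 1 := by
      rw [mul_one]
      calc (e : ℤ) * (a₁ * x₀ + c₁ * y₀) = ((e : ℤ) * a₁) * x₀ + ((e : ℤ) * c₁) * y₀ := by ring
        _ = a * x₀ + c' * y₀ := by rw [← ha₁, ← hc₁]
        _ = (e : ℤ) := hbez.symm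
    exact mul_left_cancel₀ he0 this
  -- `N ∣ c₁`
  have hNc₁ : (N : ℤ) ∣ c₁ := by
    have hcop : IsCoprime (N : ℤ) ((e : ℤ)) := by
      rw [hes]
      push_cast
      apply IsCoprime.pow_right
      rw [Int.isCoprime_iff_gcd_eq_one, Int.gcd_natCast_natCast]
      exact Nat.Coprime.symm ((Nat.Prime.coprime_iff_not_dvd hqp.out).2 hqN)
    have : (N : ℤ) ∣ (e : ℤ) * c₁ := ⟨c, by rw [← hc₁, hc']⟩
    exact hcop.dvd_of_dvd_mul_left this
  obtain ⟨c₂, hc₂⟩ := hNc₁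
  -- the matrix `k`
  have hkdet : (x₀ : ℚ) * a₁ - y₀ * ((N : ℚ) * (-c₂)) = 1 := by
    have : ((a₁ * x₀ + c₁ * y₀ : ℤ) : ℚ) = 1 := by rw [hbez1]; simp
    rw [hc₂] at this
    push_cast at this
    linarith
  let k : SLQ := mkQ x₀ y₀ ((N : ℚ) * (-c₂)) a₁ hkdet
  have hk : k ∈ GamQ N := by
    rw [mem_GamQ_iff]
    exact ⟨x₀, y₀, -c₂, a₁, by simp [k], by simp [k], by simp [k], by simp [k]⟩
  have hb : k * g ∈ Hgen N q := by
    apply upper_mem N q hqN s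
    · rw [mul_00, h00, h10]
      simp only [k, mkQ_00, mkQ_01]
      have : ((e : ℤ) : ℚ) = (a : ℚ) * x₀ + (c' : ℚ) * y₀ := by exact_mod_cast hbez
      have hes' : ((e : ℤ) : ℚ) = (q : ℚ) ^ s := by rw [hes]; push_cast; rfl
      rw [← hes', this, hcQ]
      ring
    · rw [mul_10, h00, h10]
      simp only [k, mkQ_10, mkQ_11]
      have h1 : (a : ℚ) = (e : ℤ) * a₁ := by exact_mod_cast ha₁
      have h2 : (N : ℚ) * c = (e : ℤ) * ((N : ℚ) * c₂) := by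
        have : ((c' : ℤ) : ℚ) = (((e : ℤ) * c₁ : ℤ) : ℚ) := by rw [← hc₁]
        rw [hcQ, hc₂] at this
        push_cast at this
        exact_mod_cast this
      rw [h1, h2]
      ring
    · rw [mul_01]
      simp only [k, mkQ_00, mkQ_01]
      exact ((IsAway.of_int x₀).mul ⟨n2, B, hB⟩).add ((IsAway.of_int y₀).mul ⟨n1, D, hD⟩)
  have : g = k⁻¹ * (k * g) := by group
  rw [this]
  exact mul_mem (inv_mem (Subgroup.mem_sup_left hk)) hb

lemma tQ_mem_DeltaQ : tQ q ∈ DeltaQ N q := by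
  have hq' : (q : ℚ) ≠ 0 := by exact_mod_cast q_ne_zero q
  refine ⟨?_, ?_, ⟨0, IsAway.zero, ?_⟩, ?_⟩
  · simp only [tQ, mkQ_00]; exact IsAway.of_int q
  · simp only [tQ, mkQ_01]; exact IsAway.zero
  · simp [tQ]
  · simp only [tQ, mkQ_11]
    refine ⟨1, 1, ?_⟩
    rw [pow_one, inv_mul_cancel₀ hq']
    simp

include hqN in
lemma mem_Hgen_aux : ∀ (j : ℕ) (g : SLQ), g ∈ DeltaQ N q → ∀ a c : ℤ, g 0 0 * (q : ℚ) ^ j = a →
    g 1 0 * (q : ℚ) ^ j = (N : ℚ) * c → g ∈ Hgen N q := by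
  intro j
  induction j with
  | zero =>
    intro g hg a c h00 h10
    exact mem_Hgen_of_col_int N q hqN g hg a c (by simpa using h00) (by simpa using h10)
  | succ j ih =>
    intro g hg a c h00 h10
    have h1 : g * tQ q ∈ Hgen N q := by
      apply ih _ (mul_mem hg (tQ_mem_DeltaQ N q)) a c
      · rw [mul_00, ← h00]; simp only [tQ, mkQ_00, mkQ_10]; ring
      · rw [mul_10, ← h10]; simp only [tQ, mkQ_00, mkQ_10]; ring
    have : g = (g * tQ q) * (tQ q)⁻¹ := by group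
    rw [this]
    exact mul_mem h1 (inv_mem (tQ_mem N q hqN))

include hqN in
/-- **Generation**: `Γ₀(N)` and `δΓ₀(N)δ⁻¹` generate `Δ = Γ₀(N)[1/q]`. -/
theorem sup_eq_DeltaQ : GamQ N ⊔ GamQδ N q (q_ne_zero q) = DeltaQ N q := by
  apply le_antisymm (sup_le (GamQ_le_DeltaQ N q) (GamQδ_le_DeltaQ N q _))
  intro g hg
  have hg' := hg
  obtain ⟨⟨n, m, hm⟩, -, ⟨r, ⟨k, l, hl⟩, h10⟩, -⟩ := hg'
  apply mem_Hgen_aux N q hqN (n + k) g hg (m * (q : ℤ) ^ k) (l * (q : ℤ) ^ n)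
  · push_cast; rw [← hm, pow_add]; ring
  · push_cast; rw [h10, ← hl, pow_add]; ring

end Generation

end Fermat.Agent.S41.Amalgam95
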