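/-
S41 / [AMALGAM] (helper95): **`Γ₀(N)[1/q] = Γ₀(N) *_{Γ₀(N) ∩ Γ⁰(q)} δΓ₀(N)δ⁻¹`** (`δ = diag(q,1)`, `q` prime,
`q ∤ N`), tree-free: ping-pong on `ℚ × ℚ` with the `q`-adic norm (injectivity) + explicit reduction
(generation).  Exports:
* `amalgEquiv : Amalg (GamQ N) (GamQδ N q _) ≃* ↥(DeltaQ N q)`;
* `glue_DeltaQ` : two homomorphisms on `GamQ N`, `GamQδ N q` agreeing on the intersection extend
  uniquely to `DeltaQ N q`;
* `ihara_glue` : the same for two homomorphisms `φ₁ φ₂` on Mathlib's `Gamma0 N ≤ SL(2,ℤ)`.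
-/
import Fermat.Agent.S41.Amalgam95.Delta

set_option autoImplicit false
set_option linter.unusedSectionVars false

namespace Fermat.Agent.S41.Amalgam95

open Matrix

variable (N q : ℕ) [hqp : Fact q.Prime] (hqN : ¬ q ∣ N)

include hqN in
/-- the amalgam is `Δ` -/
noncomputable def amalgEquiv :
    Amalg (GamQ N) (GamQδ N q (q_ne_zero q)) ≃* ↥(DeltaQ N q) :=
  (pingPongSL N q hqN).equivSup.trans (MulEquiv.subgroupCongr (sup_eq_DeltaQ N q hqN))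

lemma coe_amalgEquiv (x : Amalg (GamQ N) (GamQδ N q (q_ne_zero q))) :
    ((amalgEquiv N q hqN x : ↥(DeltaQ N q)) : SLQ) = toGroup _ _ x := rfl

include hqN in
/-- **gluing on `Δ`** -/
theorem glue_DeltaQ {T : Type*} [Group T] (φ₁ : ↥(GamQ N) →* T)
    (φ₂ : ↥(GamQδ N q (q_ne_zero q)) →* T)
    (hagree : ∀ (c : SLQ) (hA : c ∈ GamQ N) (hB : c ∈ GamQδ N q (q_ne_zero q)),
      φ₁ ⟨c, hA⟩ = φ₂ ⟨c, hB⟩) :
    ∃! φ : ↥(DeltaQ N q) →* T,
      (∀ (a : SLQ) (ha : a ∈ GamQ N), φ ⟨a, GamQ_le_DeltaQ N q ha⟩ = φ₁ ⟨a, ha⟩) ∧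
      (∀ (b : SLQ) (hb : b ∈ GamQδ N q (q_ne_zero q)),
        φ ⟨b, GamQδ_le_DeltaQ N q _ hb⟩ = φ₂ ⟨b, hb⟩) :=
  (pingPongSL N q hqN).glueOn (DeltaQ N q) (sup_eq_DeltaQ N q hqN) φ₁ φ₂ hagree

lemma castSL_injective : Function.Injective castSL := by
  intro g h hgh
  ext i j
  have := congrArg (fun m : SLQ => m i j) hgh
  simp only [castSL_apply] at this
  exact_mod_cast this

/-- `Γ₀(N) ≃ GamQ N` -/
noncomputable def gamEquiv : ↥(CongruenceSubgroup.Gamma0 N) ≃* ↥(GamQ N) :=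
  (CongruenceSubgroup.Gamma0 N).equivMapOfInjective castSL castSL_injective

lemma coe_gamEquiv (g : ↥(CongruenceSubgroup.Gamma0 N)) :
    ((gamEquiv N g : ↥(GamQ N)) : SLQ) = castSL g := rfl

/-- `Γ₀(N) ≃ δΓ₀(N)δ⁻¹` -/
noncomputable def gamδEquiv : ↥(CongruenceSubgroup.Gamma0 N) ≃* ↥(GamQδ N q (q_ne_zero q)) :=
  (gamEquiv N).trans
    ((GamQ N).equivMapOfInjective (conjδ q (q_ne_zero q)).toMonoidHom
      (conjδ q (q_ne_zero q)).injective)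

lemma coe_gamδEquiv (g : ↥(CongruenceSubgroup.Gamma0 N)) :
    ((gamδEquiv N q g : ↥(GamQδ N q (q_ne_zero q))) : SLQ) =
      conjδ q (q_ne_zero q) (castSL g) := rfl

lemma castSL_mem_DeltaQ (g : ↥(CongruenceSubgroup.Gamma0 N)) : castSL (g : _) ∈ DeltaQ N q :=
  GamQ_le_DeltaQ N q (gamEquiv N g).2

lemma conj_castSL_mem_DeltaQ (g : ↥(CongruenceSubgroup.Gamma0 N)) :
    conjδ q (q_ne_zero q) (castSL (g : _)) ∈ DeltaQ N q :=
  GamQδ_le_DeltaQ N q _ (gamδEquiv N q g).2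

include hqN in
/-- **Ihara gluing**: two homomorphisms `φ₁ φ₂` on `Γ₀(N)` such that `φ₁ g = φ₂ g'` whenever
`g = δ g' δ⁻¹` (i.e. `φ₁` and `φ₂ ∘ (δ⁻¹ · δ)` agree on `Γ₀(N) ∩ Γ⁰(q)`) come from a unique
homomorphism on `Δ = Γ₀(N)[1/q]`. -/
theorem ihara_glue {T : Type*} [Group T] (φ₁ φ₂ : ↥(CongruenceSubgroup.Gamma0 N) →* T)
    (hagree : ∀ g g' : ↥(CongruenceSubgroup.Gamma0 N),
      castSL (g : _) = conjδ q (q_ne_zero q) (castSL (g' : _)) → φ₁ g = φ₂ g') :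
    ∃! φ : ↥(DeltaQ N q) →* T,
      (∀ g : ↥(CongruenceSubgroup.Gamma0 N), φ ⟨castSL (g : _), castSL_mem_DeltaQ N q g⟩ = φ₁ g) ∧
      (∀ g : ↥(CongruenceSubgroup.Gamma0 N),
        φ ⟨conjδ q (q_ne_zero q) (castSL (g : _)), conj_castSL_mem_DeltaQ N q g⟩ = φ₂ g) := by
  let ψ₁ : ↥(GamQ N) →* T := φ₁.comp (gamEquiv N).symm.toMonoidHom
  let ψ₂ : ↥(GamQδ N q (q_ne_zero q)) →* T := φ₂.comp (gamδEquiv N q).symm.toMonoidHom
  have hψ₁ : ∀ g : ↥(CongruenceSubgroup.Gamma0 N), ψ₁ (gamEquiv N g) = φ₁ g := by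
    intro g
    show φ₁ ((gamEquiv N).symm (gamEquiv N g)) = φ₁ g
    rw [MulEquiv.symm_apply_apply]
  have hψ₂ : ∀ g : ↥(CongruenceSubgroup.Gamma0 N), ψ₂ (gamδEquiv N q g) = φ₂ g := by
    intro g
    show φ₂ ((gamδEquiv N q).symm (gamδEquiv N q g)) = φ₂ g
    rw [MulEquiv.symm_apply_apply]
  have hag : ∀ (c : SLQ) (hA : c ∈ GamQ N) (hB : c ∈ GamQδ N q (q_ne_zero q)),
      ψ₁ ⟨c, hA⟩ = ψ₂ ⟨c, hB⟩ := by
    intro c hA hB
    obtain ⟨g, hg⟩ : ∃ g, gamEquiv N g = ⟨c, hA⟩ := (gamEquiv N).surjective _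
    obtain ⟨g', hg'⟩ : ∃ g', gamδEquiv N q g' = ⟨c, hB⟩ := (gamδEquiv N q).surjective _
    rw [← hg, ← hg', hψ₁, hψ₂]
    apply hagree
    have e1 : castSL (g : _) = c := by
      have := congrArg (fun x : ↥(GamQ N) => (x : SLQ)) hg
      simpa [coe_gamEquiv] using this
    have e2 : conjδ q (q_ne_zero q) (castSL (g' : _)) = c := by
      have := congrArg (fun x : ↥(GamQδ N q (q_ne_zero q)) => (x : SLQ)) hg'
      simpa [coe_gamδEquiv] using this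
    rw [e1, e2]
  obtain ⟨φ, ⟨h1, h2⟩, huniq⟩ := glue_DeltaQ N q hqN ψ₁ ψ₂ hag
  refine ⟨φ, ⟨?_, ?_⟩, ?_⟩
  · intro g
    have := h1 (castSL (g : _)) (gamEquiv N g).2
    rw [this]
    exact hψ₁ g
  · intro g
    have := h2 (conjδ q (q_ne_zero q) (castSL (g : _))) (gamδEquiv N q g).2
    rw [this]
    exact hψ₂ g
  · rintro φ' ⟨h1', h2'⟩
    apply huniq
    constructor
    · intro a ha
      obtain ⟨g, hg⟩ : ∃ g, gamEquiv N g = ⟨a, ha⟩ := (gamEquiv N).surjective _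
      have e1 : castSL (g : _) = a := by
        have := congrArg (fun x : ↥(GamQ N) => (x : SLQ)) hg
        simpa [coe_gamEquiv] using this
      subst e1
      rw [h1' g, ← hψ₁ g]
      rfl
    · intro b hb
      obtain ⟨g, hg⟩ : ∃ g, gamδEquiv N q g = ⟨b, hb⟩ := (gamδEquiv N q).surjective _
      have e1 : conjδ q (q_ne_zero q) (castSL (g : _)) = b := by
        have := congrArg (fun x : ↥(GamQδ N q (q_ne_zero q)) => (x : SLQ)) hg
        simpa [coe_gamδEquiv] using this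
      subst e1
      rw [h2' g, ← hψ₂ g]
      rfl

end Fermat.Agent.S41.Amalgam95
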